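import Fermat.Agent.FlatModel.Quot

set_option autoImplicit false

/-!
# Flatness of adic Galois representations in terms of flat models
-/

namespace Fermat.FlatModel

open GaloisRep

noncomputable section

variable {A : Type} [CommRing A] [IsLocalRing A]

theorem levelAction_mk (ρ : GaloisRepAdic A) (I : Ideal A) (σ : GQ) (v : ρ.V) :
    ρ.levelAction I σ (Submodule.Quotient.mk v) = Submodule.Quotient.mk (ρ.ρ σ v) := rfl

/-- the Galois action on `V / I V`. -/
def levelAct (ρ : GaloisRepAdic A) (I : Ideal A) :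
    GQ →* AddMonoid.End (ρ.V ⧸ (I • (⊤ : Submodule A ρ.V))) where
  toFun σ := (ρ.levelAction I σ).toAddMonoidHom
  map_one' := AddMonoidHom.ext fun x => by
    obtain ⟨v, rfl⟩ := Submodule.Quotient.mk_surjective _ x
    show ρ.levelAction I 1 (Submodule.Quotient.mk v) = _
    rw [levelAction_mk, map_one]
    rfl
  map_mul' σ τ := AddMonoidHom.ext fun x => by
    obtain ⟨v, rfl⟩ := Submodule.Quotient.mk_surjective _ x
    show ρ.levelAction I (σ * τ) (Submodule.Quotient.mk v) =
      ρ.levelAction I σ (ρ.levelAction I τ (Submodule.Quotient.mk v))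
    rw [levelAction_mk, levelAction_mk, levelAction_mk, map_mul]
    rfl

@[simp] theorem levelAct_apply (ρ : GaloisRepAdic A) (I : Ideal A) (σ : GQ)
    (x : ρ.V ⧸ (I • (⊤ : Submodule A ρ.V))) : levelAct ρ I σ x = ρ.levelAction I σ x := rfl

theorem isFlatAt_iff (ρ : GaloisRepAdic A) (p : ℕ) :
    ρ.IsFlatAt p ↔ Finite (IsLocalRing.ResidueField A) ∧ ∀ I : Ideal A, Finite (A ⧸ I) →
      HasFlatModel p (levelAct ρ I) := Iff.rfl

/-- flatness only needs to be checked on a cofinal family of ideals. -/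
theorem isFlatAt_of_cofinal (ρ : GaloisRepAdic A) (p : ℕ)
    (hfin : Finite (IsLocalRing.ResidueField A)) (J : ℕ → Ideal A)
    (hJ : ∀ I : Ideal A, Finite (A ⧸ I) → ∃ n, J n ≤ I)
    (hJfin : ∀ n, Finite (A ⧸ J n))
    (hflat : ∀ n, HasFlatModel p (levelAct ρ (J n))) : ρ.IsFlatAt p := by
  rw [isFlatAt_iff]
  refine ⟨hfin, fun I hI => ?_⟩
  obtain ⟨n, hn⟩ := hJ I hI
  have hfinq : Finite (ρ.V ⧸ (J n • (⊤ : Submodule A ρ.V))) := by
    have := hJfin n
    have h1 : Module.Finite (A ⧸ J n) (ρ.V ⧸ (J n • (⊤ : Submodule A ρ.V))) := by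
      exact Module.Finite.of_restrictScalars_finite A _ _
    exact Module.finite_of_finite (A ⧸ J n)
  have hle : J n • (⊤ : Submodule A ρ.V) ≤ I • (⊤ : Submodule A ρ.V) :=
    Submodule.smul_mono_left hn
  refine (hflat n).of_surjective (Submodule.factor hle).toAddMonoidHom
    (Submodule.factor_surjective hle) ?_
  intro σ x
  obtain ⟨v, rfl⟩ := Submodule.Quotient.mk_surjective _ x
  rfl

end

end Fermat.FlatModel
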