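import Fermat.Prelude.Def_GaloisRep_Flat
import Mathlib

set_option autoImplicit false

/-!
# Basic facts about `ratLocalizedAt p = ℤ_(p) ⊆ ℚ`
-/

namespace Fermat.FlatModel

open GaloisRep

section Base

variable (p : ℕ)

theorem natCast_inv_mem {n : ℕ} (hn : n.Coprime p) : ((n : ℚ)⁻¹) ∈ ratLocalizedAt p := by
  rcases Nat.eq_zero_or_pos n with rfl | hpos
  · simp only [Nat.cast_zero, inv_zero]
    exact zero_mem _
  · change ((n : ℚ)⁻¹).den.Coprime p
    rw [Rat.inv_natCast_den_of_pos hpos]
    exact hn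

theorem isPrincipalIdealRing_ratLocalizedAt : IsPrincipalIdealRing (ratLocalizedAt p) where
  principal I := by
    obtain ⟨d, hd⟩ := (IsPrincipalIdealRing.principal (I.comap (Int.castRingHom (ratLocalizedAt p)))).principal
    refine ⟨⟨(d : ratLocalizedAt p), le_antisymm ?_ ?_⟩⟩
    · intro x hx
      have hden : ((x : ℚ).den : ratLocalizedAt p) * x = ((x : ℚ).num : ratLocalizedAt p) := by
        apply Subtype.ext
        push_cast
        rw [mul_comm]
        exact Rat.mul_den_eq_num (x : ℚ)
      have hnum : (x : ℚ).num ∈ I.comap (Int.castRingHom (ratLocalizedAt p)) := by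
        rw [Ideal.mem_comap, eq_intCast, ← hden]
        exact I.mul_mem_left _ hx
      rw [hd, Submodule.mem_span_singleton] at hnum
      obtain ⟨c, hc⟩ := hnum
      rw [Submodule.mem_span_singleton]
      refine ⟨⟨((x : ℚ).den : ℚ)⁻¹, natCast_inv_mem p x.2⟩ * c, ?_⟩
      apply Subtype.ext
      have h2 : ((x : ℚ).num : ℚ) = (c : ℚ) * d := by
        rw [← hc]; push_cast; simp
      rw [smul_eq_mul]
      show ((x : ℚ).den : ℚ)⁻¹ * (c : ℚ) * (d : ℚ) = x
      rw [mul_assoc, ← h2]
      rw [inv_mul_eq_div]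
      exact Rat.num_div_den (x : ℚ)
    · rw [Submodule.span_singleton_le_iff_mem]
      have : d ∈ I.comap (Int.castRingHom (ratLocalizedAt p)) := by
        rw [hd]; exact Submodule.mem_span_singleton_self d
      simpa using this

instance : IsPrincipalIdealRing (ratLocalizedAt p) := isPrincipalIdealRing_ratLocalizedAt p

instance : IsFractionRing (ratLocalizedAt p) ℚ where
  map_units := by
    rintro ⟨y, hy⟩
    have : (y : ℚ) ≠ 0 := by
      intro h
      exact nonZeroDivisors.ne_zero hy (Subtype.ext h)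
    exact IsUnit.mk0 _ this
  surj := by
    intro z
    refine ⟨⟨(z.num : ratLocalizedAt p), ⟨(z.den : ratLocalizedAt p), ?_⟩⟩, ?_⟩
    · rw [mem_nonZeroDivisors_iff_ne_zero]
      intro h
      have := congrArg (Subtype.val) h
      push_cast at this
      simp at this
    · show z * algebraMap (ratLocalizedAt p) ℚ ((z.den : ratLocalizedAt p)) = algebraMap _ ℚ (z.num : ratLocalizedAt p)
      rw [map_natCast, map_intCast]
      exact Rat.mul_den_eq_num z
  exists_of_eq := by
    intro x y h
    exact ⟨1, by rw [Subtype.ext h]⟩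

instance : IsIntegrallyClosed (ratLocalizedAt p) := inferInstance

/-- the algebraic closure of `ℚ`. -/
abbrev Qb : Type := AlgebraicClosure ℚ

/-- the absolute Galois group of `ℚ`. -/
abbrev GQ : Type := AlgebraicClosure ℚ ≃ₐ[ℚ] AlgebraicClosure ℚ

theorem ratAlgebra_eq :
    (DivisionRing.toRatAlgebra : Algebra ℚ (AlgebraicClosure ℚ)) = AlgebraicClosure.instAlgebra ℚ :=
  Subsingleton.elim _ _

instance instIsAlgClosureQbar : IsAlgClosure ℚ (AlgebraicClosure ℚ) := by
  have h : @IsAlgClosure ℚ (AlgebraicClosure ℚ) _ _ (AlgebraicClosure.instAlgebra ℚ) _ :=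
    @AlgebraicClosure.instIsAlgClosure ℚ _
  convert h
  exact ratAlgebra_eq

instance instIsAlgebraicQbar : Algebra.IsAlgebraic ℚ (AlgebraicClosure ℚ) := IsAlgClosure.isAlgebraic

instance instNormalQbar : Normal ℚ (AlgebraicClosure ℚ) := IsAlgClosure.normal _ _

instance instIsGaloisQbar : IsGalois ℚ (AlgebraicClosure ℚ) := inferInstance

theorem exists_rat_of_forall_fixed {x : Qb} (hx : ∀ σ : GQ, σ x = x) :
    ∃ q : ℚ, algebraMap ℚ Qb q = x := by
  have h := (InfiniteGalois.mem_bot_iff_fixed (k := ℚ) (K := Qb) x).mpr hx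
  exact IntermediateField.mem_bot.mp h

theorem exists_ratLocalizedAt_of_isIntegral {x : Qb} (hx : ∀ σ : GQ, σ x = x)
    (hi : IsIntegral (ratLocalizedAt p) x) :
    ∃ r : ratLocalizedAt p, algebraMap (ratLocalizedAt p) Qb r = x := by
  obtain ⟨q, hq⟩ := exists_rat_of_forall_fixed hx
  have hi' : IsIntegral (ratLocalizedAt p) q := by
    rw [← hq] at hi
    exact (isIntegral_algebraMap_iff (algebraMap ℚ Qb).injective).mp hi
  obtain ⟨r, hr⟩ := IsIntegrallyClosed.isIntegral_iff.mp hi'
  exact ⟨r, by rw [← hq, ← hr]; rfl⟩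

end Base

end Fermat.FlatModel
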