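import Mathlib

set_option autoImplicit false

/-!
# The Hopf algebra of functions on a finite abelian group defined by an order
-/

namespace Fermat.FlatModel

open TensorProduct

noncomputable section

section Abstract

variable {R K M A : Type*} [CommRing R] [Field K] [Algebra R K]
variable [CommRing A] [Algebra R A] (ι : A →ₐ[R] (M → K))

/-- pull back of functions along `f : X → Y`. -/
def pullR (R K : Type*) [CommRing R] [Field K] [Algebra R K] {X Y : Type*} (f : X → Y) :
    (Y → K) →ₐ[R] (X → K) where
  toFun φ := φ ∘ f
  map_one' := rfl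
  map_mul' _ _ := rfl
  map_zero' := rfl
  map_add' _ _ := rfl
  commutes' _ := rfl

@[simp] theorem pullR_apply {X Y : Type*} (f : X → Y) (φ : Y → K) (x : X) :
    pullR R K f φ x = φ (f x) := rfl

/-- multiplication of functions in separate variables. -/
def mu {X : Type*} [CommRing X] [Algebra R X] {Y : Type*} (g : X →ₐ[R] (Y → K)) :
    A ⊗[R] X →ₐ[R] (M × Y → K) :=
  Algebra.TensorProduct.productMap ((pullR R K Prod.fst).comp ι) ((pullR R K Prod.snd).comp g)

theorem mu_tmul {X : Type*} [CommRing X] [Algebra R X] {Y : Type*}
    (g : X →ₐ[R] (Y → K)) (a : A) (x : X) (m : M) (y : Y) :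
    mu ι g (a ⊗ₜ x) (m, y) = ι a m * g x y := by
  simp [mu, Algebra.TensorProduct.productMap_apply_tmul]

theorem mu_equivariant {X : Type*} [CommRing X] [Algebra R X] {Y : Type*}
    (g : X →ₐ[R] (Y → K)) {τ : K →+* K} {α : M → M} {β : Y → Y}
    (hα : ∀ a m, ι a (α m) = τ (ι a m)) (hβ : ∀ x y, g x (β y) = τ (g x y))
    (t : A ⊗[R] X) (m : M) (y : Y) : mu ι g t (α m, β y) = τ (mu ι g t (m, y)) := by
  induction t using TensorProduct.induction_on with
  | zero => simp
  | add x y hx hy => rw [map_add, Pi.add_apply, Pi.add_apply, hx, hy, map_add]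
  | tmul a b => rw [mu_tmul, mu_tmul, hα, hβ, map_mul]

theorem mu_injective {n : ℕ} (b : Module.Basis (Fin n) R A) (B : Module.Basis (Fin n) K (M → K))
    (hB : ∀ i, B i = ι (b i))
    {X : Type*} [CommRing X] [Algebra R X] {Y : Type*}
    (g : X →ₐ[R] (Y → K)) (hg : Function.Injective g) :
    Function.Injective (mu ι g) := by
  classical
  rw [injective_iff_map_eq_zero]
  intro t ht
  let e := TensorProduct.equivFinsuppOfBasisLeft (M := A) (N := X) b
  obtain ⟨c, rfl⟩ := e.symm.surjective t
  have h1 : e.symm c = ∑ i, b i ⊗ₜ c i := by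
    rw [TensorProduct.equivFinsuppOfBasisLeft_symm_apply, Finsupp.sum_fintype]
    intro i
    rw [TensorProduct.tmul_zero]
  have h2 : ∀ y : Y, ∀ i, g (c i) y = 0 := by
    intro y
    have h3 : ∑ i, g (c i) y • B i = 0 := by
      funext m
      have := congrFun ht (m, y)
      rw [h1, map_sum, Finset.sum_apply] at this
      simp only [mu_tmul] at this
      simp only [Finset.sum_apply, Pi.smul_apply, smul_eq_mul, hB]
      refine Eq.trans (Finset.sum_congr rfl fun i _ => mul_comm _ _) this
    exact fun i => Fintype.linearIndependent_iff.mp B.linearIndependent _ h3 i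
  have h4 : c = 0 := by
    ext i
    apply hg
    rw [Finsupp.zero_apply, map_zero]
    funext y
    exact h2 y i
  rw [h4, map_zero]

/-- `A ⊗ A → functions on M × M`. -/
def mu₂ : A ⊗[R] A →ₐ[R] (M × M → K) := mu ι ι

/-- `A ⊗ (A ⊗ A) → functions on M × M × M`. -/
def mu₃ : A ⊗[R] (A ⊗[R] A) →ₐ[R] (M × M × M → K) := mu ι (mu₂ ι)

@[simp] theorem mu₂_tmul (a b : A) (m n : M) : mu₂ ι (a ⊗ₜ b) (m, n) = ι a m * ι b n :=
  mu_tmul _ _ _ _ _ _

@[simp] theorem mu₃_tmul (a : A) (t : A ⊗[R] A) (m : M) (y : M × M) :
    mu₃ ι (a ⊗ₜ t) (m, y) = ι a m * mu₂ ι t y :=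
  mu_tmul _ _ _ _ _ _

theorem range_mu₂ : (mu₂ ι).range =
    ι.range.map (pullR R K (Prod.fst : M × M → M)) ⊔
      ι.range.map (pullR R K (Prod.snd : M × M → M)) := by
  rw [mu₂, mu, Algebra.TensorProduct.productMap_range, AlgHom.range_comp, AlgHom.range_comp]


variable [AddCommGroup M]

/-- The input for constructing a Hopf algebra structure on `A` out of an embedding of `A` into
functions on a finite group. -/
structure HopfInput (ι : A →ₐ[R] (M → K)) : Prop where
  inj_base : Function.Injective (algebraMap R K)
  inj : Function.Injective ι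
  inj₂ : Function.Injective (mu₂ ι)
  inj₃ : Function.Injective (mu₃ ι)
  comul : ∀ a, ∃ t : A ⊗[R] A, ∀ m n, mu₂ ι t (m, n) = ι a (m + n)
  counit : ∀ a, ∃ r : R, algebraMap R K r = ι a 0
  neg : ∀ a, ∃ a', ∀ m, ι a' m = ι a (-m)

variable {ι} (h : HopfInput ι)

namespace HopfInput

/-- comultiplication as a function. -/
def comulFun (a : A) : A ⊗[R] A := (h.comul a).choose

theorem comulFun_spec (a : A) (m n : M) : mu₂ ι (h.comulFun a) (m, n) = ι a (m + n) :=
  (h.comul a).choose_spec m n

/-- counit as a function. -/
def counitFun (a : A) : R := (h.counit a).choose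

theorem counitFun_spec (a : A) : algebraMap R K (h.counitFun a) = ι a 0 :=
  (h.counit a).choose_spec

/-- antipode as a function. -/
def antipodeFun (a : A) : A := (h.neg a).choose

theorem antipodeFun_spec (a : A) (m : M) : ι (h.antipodeFun a) m = ι a (-m) :=
  (h.neg a).choose_spec m

/-- comultiplication of the Hopf algebra attached to a flat order. -/
def comulHom : A →ₐ[R] A ⊗[R] A :=
  AlgHom.ofLinearMap
    { toFun := h.comulFun
      map_add' := fun a b => h.inj₂ (by
        funext ⟨m, n⟩
        rw [map_add, Pi.add_apply, h.comulFun_spec, h.comulFun_spec, h.comulFun_spec, map_add,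
          Pi.add_apply])
      map_smul' := fun r a => h.inj₂ (by
        funext ⟨m, n⟩
        rw [map_smul, Pi.smul_apply, h.comulFun_spec, RingHom.id_apply, h.comulFun_spec, map_smul,
          Pi.smul_apply]) }
    (h.inj₂ (by
      funext ⟨m, n⟩
      show mu₂ ι (h.comulFun 1) (m, n) = _
      rw [h.comulFun_spec, map_one, map_one]
      rfl))
    (fun a b => h.inj₂ (by
      funext ⟨m, n⟩
      show mu₂ ι (h.comulFun (a * b)) (m, n) = mu₂ ι (h.comulFun a * h.comulFun b) (m, n)
      rw [h.comulFun_spec, map_mul, map_mul, Pi.mul_apply, Pi.mul_apply, h.comulFun_spec,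
        h.comulFun_spec]))

theorem mu₂_comulHom (a : A) (m n : M) : mu₂ ι (h.comulHom a) (m, n) = ι a (m + n) :=
  h.comulFun_spec a m n

/-- counit. -/
def counitHom : A →ₐ[R] R :=
  AlgHom.ofLinearMap
    { toFun := h.counitFun
      map_add' := fun a b => h.inj_base (by
        rw [map_add, h.counitFun_spec, h.counitFun_spec, h.counitFun_spec, map_add, Pi.add_apply])
      map_smul' := fun r a => h.inj_base (by
        rw [h.counitFun_spec, map_smul, Pi.smul_apply, RingHom.id_apply, smul_eq_mul,
          map_mul, h.counitFun_spec, Algebra.smul_def]) }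
    (h.inj_base (by
      show algebraMap R K (h.counitFun 1) = _
      rw [h.counitFun_spec, map_one, map_one]
      rfl))
    (fun a b => h.inj_base (by
      show algebraMap R K (h.counitFun (a * b)) = algebraMap R K (h.counitFun a * h.counitFun b)
      rw [h.counitFun_spec, map_mul, map_mul, Pi.mul_apply, h.counitFun_spec, h.counitFun_spec]))

theorem algebraMap_counitHom (a : A) : algebraMap R K (h.counitHom a) = ι a 0 :=
  h.counitFun_spec a

/-- antipode. -/
def antipodeHom : A →ₐ[R] A :=
  AlgHom.ofLinearMap
    { toFun := h.antipodeFun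
      map_add' := fun a b => h.inj (by
        funext m
        rw [map_add, Pi.add_apply, h.antipodeFun_spec, h.antipodeFun_spec, h.antipodeFun_spec,
          map_add, Pi.add_apply])
      map_smul' := fun r a => h.inj (by
        funext m
        rw [map_smul, Pi.smul_apply, h.antipodeFun_spec, RingHom.id_apply, h.antipodeFun_spec,
          map_smul, Pi.smul_apply]) }
    (h.inj (by
      funext m
      show ι (h.antipodeFun 1) m = _
      rw [h.antipodeFun_spec, map_one]
      rfl))
    (fun a b => h.inj (by
      funext m
      show ι (h.antipodeFun (a * b)) m = ι (h.antipodeFun a * h.antipodeFun b) m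
      rw [h.antipodeFun_spec, map_mul, map_mul, Pi.mul_apply, Pi.mul_apply, h.antipodeFun_spec,
        h.antipodeFun_spec]))

theorem antipodeHom_apply (a : A) (m : M) : ι (h.antipodeHom a) m = ι a (-m) :=
  h.antipodeFun_spec a m

omit [AddCommGroup M] in
/-- evaluate elements of `A ⊗ A` at a pair of points. -/
theorem lift_eq_mu₂ (t : A ⊗[R] A) (m n : M) (f g : A →ₐ[R] K) (hf : ∀ a, f a = ι a m)
    (hg : ∀ a, g a = ι a n) :
    Algebra.TensorProduct.lift f g (fun _ _ => .all ..) t = mu₂ ι t (m, n) := by
  induction t using TensorProduct.induction_on with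
  | zero => simp
  | tmul a b => simp [hf, hg]
  | add x y hx hy => rw [map_add, map_add, Pi.add_apply, hx, hy]

theorem coassoc_aux₁ (t : A ⊗[R] A) (m n k : M) :
    mu₃ ι ((Algebra.TensorProduct.assoc R R R A A A)
      (Algebra.TensorProduct.map h.comulHom (.id R A) t)) (m, n, k) = mu₂ ι t (m + n, k) := by
  induction t using TensorProduct.induction_on with
  | zero => simp
  | add x y hx hy => simp only [map_add, Pi.add_apply, hx, hy]
  | tmul a b =>
    rw [Algebra.TensorProduct.map_tmul, mu₂_tmul, ← h.mu₂_comulHom]
    generalize h.comulHom a = s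
    induction s using TensorProduct.induction_on with
    | zero => simp
    | add x y hx hy => simp only [TensorProduct.add_tmul, map_add, Pi.add_apply, hx, hy, add_mul]
    | tmul x y =>
      simp [mul_assoc]

theorem coassoc_aux₂ (t : A ⊗[R] A) (m n k : M) :
    mu₃ ι (Algebra.TensorProduct.map (.id R A) h.comulHom t) (m, n, k) =
      mu₂ ι t (m, n + k) := by
  induction t using TensorProduct.induction_on with
  | zero => simp
  | add x y hx hy => simp only [map_add, Pi.add_apply, hx, hy]
  | tmul a b =>
    rw [Algebra.TensorProduct.map_tmul, mu₂_tmul, mu₃_tmul, h.mu₂_comulHom]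
    rfl

/-- The bialgebra structure. -/
abbrev bialgebra : Bialgebra R A :=
  Bialgebra.ofAlgHom h.comulHom h.counitHom
    (by
      refine AlgHom.ext fun a => h.inj₃ ?_
      funext ⟨m, n, k⟩
      refine (h.coassoc_aux₁ (h.comulHom a) m n k).trans ?_
      refine Eq.trans ?_ (h.coassoc_aux₂ (h.comulHom a) m n k).symm
      rw [h.mu₂_comulHom, h.mu₂_comulHom, add_assoc])
    (by
      refine AlgHom.ext fun a => ?_
      have key : ∀ t : A ⊗[R] A, ∀ m, ι (Algebra.TensorProduct.lid R A
          (Algebra.TensorProduct.map h.counitHom (.id R A) t)) m = mu₂ ι t (0, m) := by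
        intro t m
        induction t using TensorProduct.induction_on with
        | zero => simp
        | add x y hx hy => simp only [map_add, Pi.add_apply, hx, hy]
        | tmul a b => 
          rw [Algebra.TensorProduct.map_tmul, Algebra.TensorProduct.lid_tmul, map_smul,
            Pi.smul_apply, mu₂_tmul, ← h.algebraMap_counitHom, Algebra.smul_def]
          rfl
      have h2 : Algebra.TensorProduct.lid R A
          (Algebra.TensorProduct.map h.counitHom (.id R A) (h.comulHom a)) = a := by
        apply h.inj
        funext m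
        rw [key, h.mu₂_comulHom, zero_add]
      exact (Algebra.TensorProduct.lid R A).eq_symm_apply.mpr h2)
    (by
      refine AlgHom.ext fun a => ?_
      have key : ∀ t : A ⊗[R] A, ∀ m, ι (Algebra.TensorProduct.rid R R A
          (Algebra.TensorProduct.map (.id R A) h.counitHom t)) m = mu₂ ι t (m, 0) := by
        intro t m
        induction t using TensorProduct.induction_on with
        | zero => simp
        | add x y hx hy => simp only [map_add, Pi.add_apply, hx, hy]
        | tmul a b => 
          rw [Algebra.TensorProduct.map_tmul, Algebra.TensorProduct.rid_tmul, map_smul,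
            Pi.smul_apply, mu₂_tmul, ← h.algebraMap_counitHom, Algebra.smul_def]
          exact mul_comm _ _
      have h2 : Algebra.TensorProduct.rid R R A
          (Algebra.TensorProduct.map (.id R A) h.counitHom (h.comulHom a)) = a := by
        apply h.inj
        funext m
        rw [key, h.mu₂_comulHom, add_zero]
      exact (Algebra.TensorProduct.rid R R A).eq_symm_apply.mpr h2)

/-- The Hopf algebra structure. -/
abbrev hopfAlgebra : HopfAlgebra R A :=
  letI := h.bialgebra
  HopfAlgebra.ofAlgHom h.antipodeHom
    (by
      refine AlgHom.ext fun a => h.inj ?_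
      funext m
      have key : ∀ t : A ⊗[R] A, ι (Algebra.TensorProduct.lift h.antipodeHom (.id R A)
          (fun _ _ => .all _ _) t) m = mu₂ ι t (-m, m) := by
        intro t
        induction t using TensorProduct.induction_on with
        | zero => simp
        | add x y hx hy => simp only [map_add, Pi.add_apply, hx, hy]
        | tmul a b =>
          rw [Algebra.TensorProduct.lift_tmul, map_mul, Pi.mul_apply, h.antipodeHom_apply,
            mu₂_tmul]
          rfl
      refine (key (h.comulHom a)).trans ?_
      rw [h.mu₂_comulHom, neg_add_cancel, ← h.algebraMap_counitHom]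
      show _ = ι (algebraMap R A (h.counitHom a)) m
      rw [AlgHom.commutes]
      rfl)
    (by
      refine AlgHom.ext fun a => h.inj ?_
      funext m
      have key : ∀ t : A ⊗[R] A, ι (Algebra.TensorProduct.lift (.id R A) h.antipodeHom
          (fun _ _ => .all _ _) t) m = mu₂ ι t (m, -m) := by
        intro t
        induction t using TensorProduct.induction_on with
        | zero => simp
        | add x y hx hy => simp only [map_add, Pi.add_apply, hx, hy]
        | tmul a b =>
          rw [Algebra.TensorProduct.lift_tmul, map_mul, Pi.mul_apply, h.antipodeHom_apply,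
            mu₂_tmul]
          rfl
      refine (key (h.comulHom a)).trans ?_
      rw [h.mu₂_comulHom, add_neg_cancel, ← h.algebraMap_counitHom]
      show _ = ι (algebraMap R A (h.counitHom a)) m
      rw [AlgHom.commutes]
      rfl)

theorem isCocomm : letI := h.hopfAlgebra; Coalgebra.IsCocomm R A := by
  letI := h.hopfAlgebra
  refine ⟨LinearMap.ext fun a => h.inj₂ ?_⟩
  funext ⟨m, n⟩
  have key : ∀ t : A ⊗[R] A, mu₂ ι (TensorProduct.comm R A A t) (m, n) = mu₂ ι t (n, m) := by
    intro t
    induction t using TensorProduct.induction_on with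
    | zero => simp
    | add x y hx hy => simp only [map_add, Pi.add_apply, hx, hy]
    | tmul a b =>
      rw [TensorProduct.comm_tmul, mu₂_tmul, mu₂_tmul, mul_comm]
  refine (key (h.comulHom a)).trans ?_
  rw [h.mu₂_comulHom, add_comm]
  exact (h.mu₂_comulHom a m n).symm

end HopfInput

end Abstract

end

end Fermat.FlatModel
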