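import Fermat.Agent.FlatModel.Order
import Fermat.Agent.FlatModel.Hopf

set_option autoImplicit false

/-!
# Finite flat models of Galois modules
-/

namespace Fermat.FlatModel

open GaloisRep TensorProduct

noncomputable section

variable {p : ℕ} {M : Type} [AddCommGroup M] {act : GQ →* AddMonoid.End M}

/-- `M` with Galois action `act` is the generic fibre of a finite flat commutative group scheme
over `ℤ_(p)`. -/
def HasFlatModel (p : ℕ) {M : Type} [AddCommGroup M] (act : GQ →* AddMonoid.End M) : Prop :=
  ∃ (H : Type) (_ : CommRing H) (_ : HopfAlgebra (ratLocalizedAt p) H),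
      Module.Finite (ratLocalizedAt p) H ∧
      Module.Flat (ratLocalizedAt p) H ∧
      Coalgebra.IsCocomm (ratLocalizedAt p) H ∧
      ∃ e : WithConv (H →ₐ[ratLocalizedAt p] AlgebraicClosure ℚ) ≃ M,
        (∀ f g : WithConv (H →ₐ[ratLocalizedAt p] AlgebraicClosure ℚ),
          e (f * g) = e f + e g) ∧
        ∀ (σ : AlgebraicClosure ℚ ≃ₐ[ℚ] AlgebraicClosure ℚ)
          (f g : WithConv (H →ₐ[ratLocalizedAt p] AlgebraicClosure ℚ)),
          (∀ h : H, g h = σ (f h)) → e g = act σ (e f)

/-- multiplication by a natural number pulls back the order into itself. -/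
theorem IsFlatOrder.nsmul_mem {A : Subalgebra (ratLocalizedAt p) (M → Qb)}
    (hA : IsFlatOrder p act A) {φ : M → Qb} (hφ : φ ∈ A) (n : ℕ) :
    (fun m => φ (n • m)) ∈ A := by
  induction n generalizing φ with
  | zero =>
    have hi : IsIntegral (ratLocalizedAt p) (φ 0) := by
      have := hA.moduleFinite
      have h : IsIntegral (ratLocalizedAt p) (⟨φ, hφ⟩ : A) := Algebra.IsIntegral.isIntegral _
      exact h.map ((ev p (0 : M)).comp A.val)
    obtain ⟨r, hr⟩ := exists_ratLocalizedAt_of_isIntegral p (x := φ 0)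
      (fun σ => by rw [← hA.equivariant φ hφ, map_zero]) hi
    have : (fun m : M => φ (0 • m)) = algebraMap (ratLocalizedAt p) (M → Qb) r := by
      funext m
      rw [zero_smul, ← hr]
      rfl
    rw [this]
    exact A.algebraMap_mem r
  | succ n ih =>
    have h1 := hA.comul ⟨φ, hφ, rfl⟩
    have h2 : (A.map (pull p (Prod.fst : M × M → M)) ⊔ A.map (pull p (Prod.snd : M × M → M))).map
        (pull p (fun m : M => (n • m, m))) ≤ A := by
      rw [Algebra.map_sup, sup_le_iff]
      constructor
      · rw [Subalgebra.map_map, pull_comp]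
        rintro _ ⟨ψ, hψ, rfl⟩
        exact ih hψ
      · rw [Subalgebra.map_map, pull_comp]
        rintro _ ⟨ψ, hψ, rfl⟩
        exact hψ
    have h3 := h2 ⟨_, h1, rfl⟩
    convert h3 using 1
    funext m
    show φ ((n + 1) • m) = φ (n • m + m)
    rw [succ_nsmul]

theorem IsFlatOrder.neg_mem [Finite M] {A : Subalgebra (ratLocalizedAt p) (M → Qb)}
    (hA : IsFlatOrder p act A) {φ : M → Qb} (hφ : φ ∈ A) :
    (fun m => φ (-m)) ∈ A := by
  have h := hA.nsmul_mem hφ (Nat.card M - 1)
  convert h using 1
  funext m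
  congr 1
  have hpos : 0 < Nat.card M := Nat.card_pos
  rw [eq_comm, ← sub_eq_zero, sub_neg_eq_add]
  rw [← succ_nsmul, Nat.sub_add_cancel hpos]
  exact card_nsmul_eq_zero'

theorem IsFlatOrder.hopfInput [Finite M] {A : Subalgebra (ratLocalizedAt p) (M → Qb)}
    (hA : IsFlatOrder p act A) : HopfInput (R := ratLocalizedAt p) (K := Qb) A.val := by
  obtain ⟨n, b, B, hB⟩ := hA.exists_basis
  have hinj₂ : Function.Injective (mu₂ (R := ratLocalizedAt p) (K := Qb) A.val) :=
    mu_injective A.val b B hB A.val Subtype.val_injective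
  refine ⟨?_, Subtype.val_injective, hinj₂, mu_injective A.val b B hB _ hinj₂, ?_, ?_, ?_⟩
  · intro x y h
    have : algebraMap ℚ Qb (x : ℚ) = algebraMap ℚ Qb (y : ℚ) := h
    exact Subtype.ext ((algebraMap ℚ Qb).injective this)
  · intro a
    have h1 : (pull p (fun x : M × M => x.1 + x.2)) (a : M → Qb) ∈
        (mu₂ (R := ratLocalizedAt p) (K := Qb) A.val).range := by
      rw [range_mu₂, Subalgebra.range_val]
      exact hA.comul ⟨a, a.2, rfl⟩
    obtain ⟨t, ht⟩ := h1
    exact ⟨t, fun m n => congrFun ht (m, n)⟩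
  · intro a
    have hi : IsIntegral (ratLocalizedAt p) ((a : M → Qb) 0) := by
      have := hA.moduleFinite
      have h : IsIntegral (ratLocalizedAt p) a := Algebra.IsIntegral.isIntegral _
      exact h.map ((ev p (0 : M)).comp A.val)
    exact exists_ratLocalizedAt_of_isIntegral p
      (fun σ => by
        have := hA.equivariant a a.2 σ 0
        rw [map_zero] at this
        exact this.symm) hi
  · intro a
    exact ⟨⟨_, hA.neg_mem a.2⟩, fun m => rfl⟩

/-- A flat order gives a finite flat model. -/
theorem IsFlatOrder.hasFlatModel [Finite M] {A : Subalgebra (ratLocalizedAt p) (M → Qb)}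
    (hA : IsFlatOrder p act A) : HasFlatModel p act := by
  have hin := hA.hopfInput
  have := hA.moduleFinite
  have hfree : Module.Free (ratLocalizedAt p) A := hA.moduleFree
  have hflat : Module.Flat (ratLocalizedAt p) A := @Module.Flat.of_free _ _ _ _ _ hfree
  letI := hin.hopfAlgebra
  refine ⟨A, inferInstance, hin.hopfAlgebra, hA.moduleFinite, hflat, hin.isCocomm, ?_⟩
  let evA : M → WithConv (A →ₐ[ratLocalizedAt p] AlgebraicClosure ℚ) :=
    fun m => WithConv.toConv ((ev p m).comp A.val)
  have hinj : Function.Injective evA := by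
    intro m n hmn
    refine hA.separates m n fun φ hφ => ?_
    have h1 : ((ev p m).comp A.val) = ((ev p n).comp A.val) := WithConv.toConv_injective hmn
    exact DFunLike.congr_fun h1 ⟨φ, hφ⟩
  have hsurj : Function.Surjective evA := by
    intro χ
    obtain ⟨m, hm⟩ := hA.exists_eq_eval χ.ofConv
    refine ⟨m, WithConv.ofConv_injective (AlgHom.ext fun a => ?_)⟩
    exact (hm a).symm
  let e := (Equiv.ofBijective evA ⟨hinj, hsurj⟩).symm
  have hmul : ∀ m n, evA (m + n) = evA m * evA n := by
    intro m n
    refine WithConv.ofConv_injective (AlgHom.ext fun a => ?_)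
    have h2 := AlgHom.convMul_apply (evA m) (evA n) a
    refine Eq.trans ?_ h2.symm
    refine Eq.trans ?_ (HopfInput.lift_eq_mu₂ (ι := A.val) (hin.comulHom a) m n _ _ (fun _ => rfl)
      (fun _ => rfl)).symm
    rw [hin.mu₂_comulHom]
    rfl
  refine ⟨e, ?_, ?_⟩
  · intro f g
    obtain ⟨m, rfl⟩ := hsurj f
    obtain ⟨n, rfl⟩ := hsurj g
    rw [← hmul]
    have he : ∀ m, e (evA m) = m := fun m => (Equiv.ofBijective evA ⟨hinj, hsurj⟩).symm_apply_apply m
    rw [he, he, he]
  · intro σ f g hfg
    obtain ⟨m, rfl⟩ := hsurj f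
    have he : ∀ m, e (evA m) = m := fun m => (Equiv.ofBijective evA ⟨hinj, hsurj⟩).symm_apply_apply m
    have hg : g = evA (act σ m) := by
      refine WithConv.ofConv_injective (AlgHom.ext fun a => ?_)
      refine (hfg a).trans ?_
      exact (hA.equivariant a a.2 σ m).symm
    rw [hg, he, he]

/-- A finite flat model gives a flat order. -/
theorem HasFlatModel.exists_order (h : HasFlatModel p act) : ∃ A, IsFlatOrder p act A := by
  obtain ⟨H, _, _, hfin, hflat, hcocomm, e, hmul, hgal⟩ := h
  let ι : H →ₐ[ratLocalizedAt p] (M → Qb) :=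
    AlgHom.pi fun m => (e.symm m).ofConv
  have hι : ∀ h m, ι h m = (e.symm m) h := fun _ _ => rfl
  refine ⟨ι.range, ⟨?_, ?_, ?_⟩, ?_⟩
  · have : Module.Finite (ratLocalizedAt p) ι.range :=
      Module.Finite.of_surjective ι.rangeRestrict.toLinearMap ι.rangeRestrict_surjective
    exact Module.Finite.iff_fg.mp this
  · rintro _ ⟨h, rfl⟩ σ m
    let f := e.symm m
    let g : WithConv (H →ₐ[ratLocalizedAt p] AlgebraicClosure ℚ) :=
      WithConv.toConv (((σ : AlgebraicClosure ℚ →ₐ[ℚ] AlgebraicClosure ℚ).restrictScalars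
        (ratLocalizedAt p)).comp f.ofConv)
    have h1 := hgal σ f g (fun h => rfl)
    have h2 : e.symm (act σ m) = g := by
      rw [Equiv.symm_apply_eq, h1, Equiv.apply_symm_apply]
    show (e.symm (act σ m)) h = σ (e.symm m h)
    rw [h2]
    rfl
  · intro m n hmn
    apply e.symm.injective
    apply WithConv.ofConv_injective
    refine AlgHom.ext fun h => ?_
    exact hmn (ι h) ⟨h, rfl⟩
  · rw [← range_mu₂ (R := ratLocalizedAt p) (K := Qb) ι]
    rintro _ ⟨_, ⟨h, rfl⟩, rfl⟩
    refine ⟨Coalgebra.comul h, ?_⟩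
    funext ⟨m, n⟩
    have h1 : e.symm (m + n) = e.symm m * e.symm n := by
      rw [Equiv.symm_apply_eq, hmul, Equiv.apply_symm_apply, Equiv.apply_symm_apply]
    show mu₂ ι (Coalgebra.comul h) (m, n) = (e.symm (m + n)) h
    rw [h1, AlgHom.convMul_apply]
    exact (HopfInput.lift_eq_mu₂ (ι := ι) _ m n _ _ (fun _ => rfl) (fun _ => rfl)).symm

section Sub

variable {M' : Type} [AddCommGroup M'] {act' : GQ →* AddMonoid.End M'}

/-- restriction of an order to a subgroup. -/
theorem IsFlatOrder.restrict {A : Subalgebra (ratLocalizedAt p) (M → Qb)}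
    (hA : IsFlatOrder p act A) (i : M' →+ M) (hi : Function.Injective i)
    (hact : ∀ σ m, i (act' σ m) = act σ (i m)) :
    IsFlatOrder p act' (A.map (pull p i)) := by
  refine ⟨⟨?_, ?_, ?_⟩, ?_⟩
  · have : (A.map (pull p i)).toSubmodule = A.toSubmodule.map (pull p i).toLinearMap := rfl
    rw [this]
    exact hA.fg.map _
  · rintro _ ⟨φ, hφ, rfl⟩ σ m
    show φ (i (act' σ m)) = σ (φ (i m))
    rw [hact, hA.equivariant φ hφ]
  · intro m n hmn
    exact hi (hA.separates _ _ fun φ hφ => hmn _ ⟨φ, hφ, rfl⟩)
  · have h1 : (A.map (pull p i)).map (pull p (fun x : M' × M' => x.1 + x.2)) =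
        (A.map (pull p (fun x : M × M => x.1 + x.2))).map (pull p (Prod.map i i)) := by
      rw [Subalgebra.map_map, Subalgebra.map_map, pull_comp, pull_comp]
      congr 2
      funext x
      exact map_add i _ _
    rw [h1]
    refine (Subalgebra.map_mono hA.comul).trans ?_
    rw [Algebra.map_sup, Subalgebra.map_map, Subalgebra.map_map, Subalgebra.map_map,
      Subalgebra.map_map, pull_comp, pull_comp, pull_comp, pull_comp]
    exact le_rfl

/-- closure of flat models under equivariant subgroups. -/
theorem HasFlatModel.of_injective [Finite M] (h : HasFlatModel p act) (i : M' →+ M)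
    (hi : Function.Injective i) (hact : ∀ σ m, i (act' σ m) = act σ (i m)) :
    HasFlatModel p act' := by
  obtain ⟨A, hA⟩ := h.exists_order
  have : Finite M' := Finite.of_injective i hi
  exact (hA.restrict i hi hact).hasFlatModel

end Sub

section Prod

variable {M' : Type} [AddCommGroup M'] {act' : GQ →* AddMonoid.End M'}

/-- the product action -/
def prodAct (act : GQ →* AddMonoid.End M) (act' : GQ →* AddMonoid.End M') :
    GQ →* AddMonoid.End (M × M') where
  toFun σ := AddMonoidHom.prodMap (act σ) (act' σ)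
  map_one' := AddMonoidHom.ext fun x => by
    show (act 1 x.1, act' 1 x.2) = x
    rw [map_one, map_one]; rfl
  map_mul' σ τ := AddMonoidHom.ext fun x => by
    show (act (σ * τ) x.1, act' (σ * τ) x.2) = (act σ (act τ x.1), act' σ (act' τ x.2))
    rw [map_mul, map_mul]; rfl

@[simp] theorem prodAct_apply (σ : GQ) (x : M × M') :
    prodAct act act' σ x = (act σ x.1, act' σ x.2) := rfl

theorem IsFlatOrder.prod {A : Subalgebra (ratLocalizedAt p) (M → Qb)}
    (hA : IsFlatOrder p act A) {A' : Subalgebra (ratLocalizedAt p) (M' → Qb)}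
    (hA' : IsFlatOrder p act' A') :
    IsFlatOrder p (prodAct act act') (A.map (pull p (Prod.fst : M × M' → M)) ⊔
      A'.map (pull p (Prod.snd : M × M' → M'))) := by
  have hrange : (A.map (pull p (Prod.fst : M × M' → M)) ⊔
      A'.map (pull p (Prod.snd : M × M' → M'))) =
      (mu (R := ratLocalizedAt p) (K := Qb) A.val A'.val).range := by
    rw [mu, Algebra.TensorProduct.productMap_range, AlgHom.range_comp, AlgHom.range_comp,
      Subalgebra.range_val, Subalgebra.range_val]
  refine ⟨⟨?_, ?_, ?_⟩, ?_⟩
  · rw [hrange]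
    have := hA.moduleFinite
    have := hA'.moduleFinite
    have : Module.Finite (ratLocalizedAt p) (mu (R := ratLocalizedAt p) (K := Qb) A.val A'.val).range :=
      Module.Finite.of_surjective (AlgHom.rangeRestrict _).toLinearMap
        (AlgHom.rangeRestrict_surjective _)
    exact Module.Finite.iff_fg.mp this
  · intro φ hφ σ x
    rw [hrange] at hφ
    obtain ⟨t, rfl⟩ := hφ
    obtain ⟨m, n⟩ := x
    exact mu_equivariant (R := ratLocalizedAt p) (K := Qb) A.val A'.val
      (τ := (σ : AlgebraicClosure ℚ →+* AlgebraicClosure ℚ)) (α := act σ) (β := act' σ)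
      (fun a m => hA.equivariant a a.2 σ m) (fun a m => hA'.equivariant a a.2 σ m) t m n
  · rintro ⟨m, m'⟩ ⟨n, n'⟩ h
    have h1 : m = n := hA.separates _ _ fun φ hφ => by
      exact h _ ((le_sup_left : _ ≤ A.map (pull p (Prod.fst : M × M' → M)) ⊔
        A'.map (pull p (Prod.snd : M × M' → M'))) ⟨φ, hφ, rfl⟩)
    have h2 : m' = n' := hA'.separates _ _ fun φ hφ => by
      exact h _ ((le_sup_right : _ ≤ A.map (pull p (Prod.fst : M × M' → M)) ⊔
        A'.map (pull p (Prod.snd : M × M' → M'))) ⟨φ, hφ, rfl⟩)
    rw [h1, h2]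
  · simp only [Algebra.map_sup, Subalgebra.map_map, pull_comp]
    refine sup_le ?_ ?_
    · have h1 : A.map (pull p ((Prod.fst : M × M' → M) ∘ fun x : (M × M') × (M × M') => x.1 + x.2)) =
        (A.map (pull p (fun x : M × M => x.1 + x.2))).map
          (pull p (Prod.map (Prod.fst : M × M' → M) (Prod.fst : M × M' → M))) := by
        rw [Subalgebra.map_map, pull_comp]
        rfl
      rw [h1]
      refine (Subalgebra.map_mono hA.comul).trans ?_
      rw [Algebra.map_sup, Subalgebra.map_map, Subalgebra.map_map, pull_comp, pull_comp]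
      refine sup_le ?_ ?_
      · exact le_trans le_sup_left le_sup_left
      · exact le_trans le_sup_left le_sup_right
    · have h1 : A'.map (pull p ((Prod.snd : M × M' → M') ∘ fun x : (M × M') × (M × M') => x.1 + x.2)) =
        (A'.map (pull p (fun x : M' × M' => x.1 + x.2))).map
          (pull p (Prod.map (Prod.snd : M × M' → M') (Prod.snd : M × M' → M'))) := by
        rw [Subalgebra.map_map, pull_comp]
        rfl
      rw [h1]
      refine (Subalgebra.map_mono hA'.comul).trans ?_
      rw [Algebra.map_sup, Subalgebra.map_map, Subalgebra.map_map, pull_comp, pull_comp]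
      refine sup_le ?_ ?_
      · exact le_trans le_sup_right le_sup_left
      · exact le_trans le_sup_right le_sup_right

/-- closure of flat models under products. -/
theorem HasFlatModel.prod [Finite M] [Finite M'] (h : HasFlatModel p act) (h' : HasFlatModel p act') :
    HasFlatModel p (prodAct act act') := by
  obtain ⟨A, hA⟩ := h.exists_order
  obtain ⟨A', hA'⟩ := h'.exists_order
  exact (hA.prod hA').hasFlatModel

end Prod

end

end Fermat.FlatModel
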