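import Fermat.Agent.FlatModel.Base
import Fermat.Agent.FlatModel.Hopf

set_option autoImplicit false

/-!
# Orders in rings of equivariant functions
-/

namespace Fermat.FlatModel

open GaloisRep

noncomputable section

section Pull

variable (p : ℕ) {X Y Z : Type*}

/-- pull back of functions along `f : X → Y`. -/
abbrev pull (f : X → Y) : (Y → Qb) →ₐ[ratLocalizedAt p] (X → Qb) := pullR (ratLocalizedAt p) Qb f

theorem pull_apply (f : X → Y) (φ : Y → Qb) (x : X) : pull p f φ x = φ (f x) := rfl

theorem pull_comp (f : X → Y) (g : Y → Z) : (pull p f).comp (pull p g) = pull p (g ∘ f) := rfl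

/-- evaluation at a point. -/
def ev (x : X) : (X → Qb) →ₐ[ratLocalizedAt p] Qb := Pi.evalAlgHom _ _ x

@[simp] theorem ev_apply (x : X) (φ : X → Qb) : ev p x φ = φ x := rfl

end Pull

variable {p : ℕ} {M : Type*} [AddCommGroup M] {act : GQ →* AddMonoid.End M}

/-- An order in the ring of Galois equivariant functions on `M`. -/
structure IsPreOrder (p : ℕ) (act : GQ →* AddMonoid.End M)
    (A : Subalgebra (ratLocalizedAt p) (M → Qb)) : Prop where
  fg : A.toSubmodule.FG
  equivariant : ∀ φ ∈ A, ∀ (σ : GQ) (m : M), φ (act σ m) = σ (φ m)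
  separates : ∀ m n : M, (∀ φ ∈ A, φ m = φ n) → m = n

/-- An order in the ring of Galois equivariant functions on `M`, closed under comultiplication. -/
structure IsFlatOrder (p : ℕ) (act : GQ →* AddMonoid.End M)
    (A : Subalgebra (ratLocalizedAt p) (M → Qb)) : Prop extends IsPreOrder p act A where
  comul : A.map (pull p (fun x : M × M => x.1 + x.2)) ≤
    A.map (pull p (Prod.fst : M × M → M)) ⊔ A.map (pull p (Prod.snd : M × M → M))

section LinInd

/-- Galois equivariant functions that are linearly independent over `ℚ` are so over `ℚ̄`. -/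
theorem linearIndependent_of_rat {ι : Type*} (v : ι → (M → Qb))
    (hv : ∀ i, ∀ (σ : GQ) (m : M), v i (act σ m) = σ (v i m))
    (h : LinearIndependent ℚ v) : LinearIndependent Qb v := by
  classical
  rw [linearIndependent_iff'] at h ⊢
  intro s
  induction s using Finset.induction_on with
  | empty => intro g _ i hi; simp at hi
  | insert i s his ih =>
    intro g hg
    -- reduce to the case `g i = 0`
    have key : g i = 0 := by
      by_contra hne
      -- d j = g j / g i
      have hrel : v i + ∑ j ∈ s, (g j / g i) • v j = 0 := by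
        rw [Finset.sum_insert his] at hg
        have := congrArg (fun w => (g i)⁻¹ • w) hg
        simp only [smul_add, smul_zero, Finset.smul_sum, smul_smul, inv_mul_cancel₀ hne, one_smul] at this
        rw [← this]
        congr 1
        refine Finset.sum_congr rfl fun j _ => ?_
        rw [div_eq_inv_mul]
      have hfix : ∀ j ∈ s, ∀ σ : GQ, σ (g j / g i) = g j / g i := by
        intro j hj σ
        have hσ : v i + ∑ j ∈ s, σ (g j / g i) • v j = 0 := by
          funext m
          have h1 := congrFun hrel (act σ⁻¹ m)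
          have h2 := congrArg σ h1
          simp only [Pi.add_apply, Finset.sum_apply, Pi.smul_apply, smul_eq_mul, Pi.zero_apply,
            map_add, map_sum, map_mul, map_zero] at h2
          have h3 : ∀ k, σ (v k (act σ⁻¹ m)) = v k m := by
            intro k
            rw [← hv k σ (act σ⁻¹ m)]
            have : act σ (act σ⁻¹ m) = (act (σ * σ⁻¹)) m := by rw [map_mul]; rfl
            rw [this, mul_inv_cancel, map_one]
            rfl
          simp only [h3] at h2
          simpa using h2
        have hsub : ∑ j ∈ s, (σ (g j / g i) - g j / g i) • v j = 0 := by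
          simp only [sub_smul, Finset.sum_sub_distrib]
          have := hσ.trans hrel.symm
          rw [add_right_inj] at this
          rw [this, sub_self]
        exact sub_eq_zero.mp (ih _ hsub j hj)
      have hrat : ∀ j, ∃ q : ℚ, j ∈ s → algebraMap ℚ Qb q = g j / g i := by
        intro j
        by_cases hj : j ∈ s
        · obtain ⟨q, hq⟩ := exists_rat_of_forall_fixed (hfix j hj)
          exact ⟨q, fun _ => hq⟩
        · exact ⟨0, fun h => absurd h hj⟩
      choose q hq using hrat
      have hrel' : ∑ j ∈ insert i s, (if j = i then (1 : ℚ) else q j) • v j = 0 := by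
        rw [Finset.sum_insert his, if_pos rfl, one_smul, ← hrel]
        congr 1
        refine Finset.sum_congr rfl fun j hj => ?_
        have hji : j ≠ i := fun e => his (e ▸ hj)
        rw [if_neg hji, ← hq j hj, algebraMap_smul]
      have := h _ _ hrel' i (Finset.mem_insert_self i s)
      simp at this
    intro j hj
    rcases Finset.mem_insert.mp hj with rfl | hj
    · exact key
    · refine ih g ?_ j hj
      rw [Finset.sum_insert his, key, zero_smul, zero_add] at hg
      exact hg

theorem linearIndependent_of_ratLocalizedAt {ι : Type*} (v : ι → (M → Qb))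
    (hv : ∀ i, ∀ (σ : GQ) (m : M), v i (act σ m) = σ (v i m))
    (h : LinearIndependent (ratLocalizedAt p) v) : LinearIndependent Qb v := by
  refine linearIndependent_of_rat v hv ?_
  exact (LinearIndependent.iff_fractionRing (ratLocalizedAt p) ℚ).mp h

end LinInd

namespace IsPreOrder

variable {A : Subalgebra (ratLocalizedAt p) (M → Qb)} (hA : IsPreOrder p act A)

include hA

theorem moduleFinite : Module.Finite (ratLocalizedAt p) A :=
  Module.Finite.iff_fg.mpr hA.fg

end IsPreOrder

omit [AddCommGroup M] in
theorem isTorsionFree_subalgebra (A : Subalgebra (ratLocalizedAt p) (M → Qb)) :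
    Module.IsTorsionFree (ratLocalizedAt p) A := by
  refine Module.IsTorsionFree.of_smul_eq_zero fun r a h => ?_
  by_cases hr : r = 0
  · exact Or.inl hr
  right
  apply Subtype.ext
  funext m
  have h1 : (r • (a : M → Qb)) m = 0 := congrFun (congrArg Subtype.val h) m
  have h2 : algebraMap ℚ Qb (r : ℚ) * (a : M → Qb) m = 0 := by
    rw [← h1, Pi.smul_apply, Algebra.smul_def]
    rfl
  have h3 : algebraMap ℚ Qb (r : ℚ) ≠ 0 := by
    rw [Ne, map_eq_zero]
    exact fun h => hr (Subtype.ext h)
  exact (mul_eq_zero.mp h2).resolve_left h3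

theorem IsPreOrder.moduleFree {A : Subalgebra (ratLocalizedAt p) (M → Qb)}
    (hA : IsPreOrder p act A) : Module.Free (ratLocalizedAt p) A := by
  have := hA.moduleFinite
  have := isTorsionFree_subalgebra A
  infer_instance


section Span

variable [Finite M] {A : Subalgebra (ratLocalizedAt p) (M → Qb)}

omit [AddCommGroup M] in
/-- Lagrange interpolation: functions separating points span. -/
theorem span_eq_top (hsep : ∀ m n : M, (∀ φ ∈ A, φ m = φ n) → m = n) :
    Submodule.span Qb (A : Set (M → Qb)) = ⊤ := by
  classical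
  let _ := Fintype.ofFinite M
  set W := Submodule.span Qb (A : Set (M → Qb)) with hW
  have h1 : (1 : M → Qb) ∈ W := Submodule.subset_span (one_mem A)
  have hmul : ∀ x ∈ W, ∀ y ∈ W, x * y ∈ W := by
    intro x hx y hy
    have : x * y ∈ W * W := Submodule.mul_mem_mul hx hy
    rw [hW, Submodule.span_mul_span] at this
    refine Submodule.span_mono ?_ this
    rintro _ ⟨a, ha, b, hb, rfl⟩
    exact A.mul_mem ha hb
  have hex : ∀ m n : M, m ≠ n → ∃ f ∈ W, f m = 1 ∧ f n = 0 := by
    intro m n hmn
    have : ∃ φ ∈ A, φ m ≠ φ n := by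
      by_contra hcon
      push Not at hcon
      exact hmn (hsep m n hcon)
    obtain ⟨φ, hφ, hne⟩ := this
    have hne' : φ m - φ n ≠ 0 := sub_ne_zero.mpr hne
    refine ⟨(φ m - φ n)⁻¹ • (φ - φ n • (1 : M → Qb)), ?_, ?_, ?_⟩
    · exact W.smul_mem _ (W.sub_mem (Submodule.subset_span hφ) (W.smul_mem _ h1))
    · simp [hne']
    · simp
  choose! f hfW hf1 hf0 using hex
  have hδ : ∀ m : M, (Pi.single m 1 : M → Qb) ∈ W := by
    intro m
    have : (Pi.single m 1 : M → Qb) = ∏ n ∈ Finset.univ.erase m, f m n := by
      funext x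
      rw [Finset.prod_apply]
      by_cases hx : x = m
      · subst hx
        rw [Pi.single_eq_same]
        refine (Finset.prod_eq_one fun n hn => ?_).symm
        exact hf1 x n (Finset.ne_of_mem_erase hn).symm
      · rw [Pi.single_eq_of_ne hx]
        refine (Finset.prod_eq_zero (i := x) (Finset.mem_erase.mpr ⟨hx, Finset.mem_univ x⟩) ?_).symm
        exact hf0 m x (Ne.symm hx)
    rw [this]
    refine Finset.prod_induction _ (· ∈ W) (fun a b ha hb => hmul a ha b hb) h1 fun n hn => ?_
    exact hfW m n (Finset.ne_of_mem_erase hn).symm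
  rw [eq_top_iff]
  intro g _
  have : g = ∑ m, g m • (Pi.single m 1 : M → Qb) := by
    funext x
    simp [Finset.sum_apply, Pi.single_apply]
  rw [this]
  exact W.sum_mem fun m _ => W.smul_mem _ (hδ m)

/-- A chosen index type for a basis of the order. -/
theorem IsPreOrder.exists_basis (hA : IsPreOrder p act A) :
    ∃ (n : ℕ) (b : Module.Basis (Fin n) (ratLocalizedAt p) A)
      (B : Module.Basis (Fin n) Qb (M → Qb)), ∀ i, B i = (b i : M → Qb) := by
  have := hA.moduleFinite
  have := hA.moduleFree
  let b := Module.finBasis (ratLocalizedAt p) A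
  have hli : LinearIndependent Qb (fun i => (b i : M → Qb)) := by
    refine linearIndependent_of_ratLocalizedAt (p := p) (act := act) _
      (fun i => hA.equivariant _ (b i).2) ?_
    exact b.linearIndependent.map' A.val.toLinearMap
      (LinearMap.ker_eq_bot.mpr Subtype.val_injective)
  have hsp : ⊤ ≤ Submodule.span Qb (Set.range (fun i => (b i : M → Qb))) := by
    rw [← span_eq_top hA.separates, Submodule.span_le]
    intro a ha
    have h1 : (⟨a, ha⟩ : A) = ∑ i, b.repr ⟨a, ha⟩ i • b i := (b.sum_repr _).symm
    have h2 : a = ∑ i, (b.repr ⟨a, ha⟩ i) • (b i : M → Qb) := by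
      have := congrArg A.val h1
      rw [map_sum] at this
      simp only [map_smul] at this
      exact this
    rw [h2]
    refine Submodule.sum_mem _ fun i _ => ?_
    have : (b.repr ⟨a, ha⟩ i) • (b i : M → Qb) =
        (algebraMap (ratLocalizedAt p) Qb (b.repr ⟨a, ha⟩ i)) • (b i : M → Qb) := by
      rw [algebraMap_smul]
    rw [this]
    exact Submodule.smul_mem _ _ (Submodule.subset_span ⟨i, rfl⟩)
  exact ⟨_, b, Module.Basis.mk hli hsp, fun i => by rw [Module.Basis.mk_apply]⟩


omit [AddCommGroup M] in
/-- A multiplicative unital `ℚ̄`-linear functional on functions on a finite set is an evaluation. -/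
theorem exists_eq_eval_of_mul (χ : (M → Qb) →ₗ[Qb] Qb) (h1 : χ 1 = 1)
    (hmul : ∀ f g, χ (f * g) = χ f * χ g) : ∃ m : M, ∀ f, χ f = f m := by
  classical
  let _ := Fintype.ofFinite M
  have hsum : ∑ m : M, χ (Pi.single m 1) = 1 := by
    have h0 : ∑ m : M, (Pi.single m 1 : M → Qb) = 1 := by
      funext x
      simp [Finset.sum_apply, Pi.single_apply]
    rw [← map_sum, h0, h1]
  obtain ⟨m, hm⟩ : ∃ m : M, χ (Pi.single m 1) ≠ 0 := by
    by_contra hcon
    push Not at hcon
    rw [Finset.sum_eq_zero fun m _ => hcon m] at hsum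
    exact zero_ne_one hsum
  refine ⟨m, fun f => ?_⟩
  have h2 : f * Pi.single m 1 = f m • (Pi.single m 1 : M → Qb) := by
    funext x
    by_cases hx : x = m
    · subst hx; simp
    · simp [Pi.single_eq_of_ne hx]
  have h3 := hmul f (Pi.single m 1)
  rw [h2, map_smul, smul_eq_mul] at h3
  exact (mul_right_cancel₀ hm h3).symm

/-- characters of a flat order are evaluations. -/
theorem IsPreOrder.exists_eq_eval (hA : IsPreOrder p act A)
    (χ : A →ₐ[ratLocalizedAt p] Qb) : ∃ m : M, ∀ a : A, χ a = (a : M → Qb) m := by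
  obtain ⟨n, b, B, hB⟩ := hA.exists_basis
  let χ' : (M → Qb) →ₗ[Qb] Qb := B.constr Qb (fun i => χ (b i))
  have hχ' : ∀ a : A, χ' (a : M → Qb) = χ a := by
    intro a
    have h : (χ'.restrictScalars (ratLocalizedAt p)) ∘ₗ A.val.toLinearMap = χ.toLinearMap := by
      refine b.ext fun i => ?_
      simp only [LinearMap.coe_comp, Function.comp_apply, AlgHom.toLinearMap_apply,
        LinearMap.coe_restrictScalars]
      have h5 : A.val (b i) = B i := (hB i).symm
      rw [h5]
      exact B.constr_basis Qb _ i
    exact LinearMap.congr_fun h a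
  have hmulA : ∀ a a' : A, χ' ((a : M → Qb) * (a' : M → Qb)) = χ' a * χ' a' := by
    intro a a'
    rw [hχ', hχ', ← map_mul, ← hχ']
    rfl
  have hmul : ∀ f g, χ' (f * g) = χ' f * χ' g := by
    have key : (LinearMap.mul Qb (M → Qb)).compr₂ χ' =
        ((LinearMap.mul Qb Qb).compl₁₂ χ' χ') := by
      refine B.ext fun i => B.ext fun j => ?_
      simp only [LinearMap.compr₂_apply, LinearMap.mul_apply', LinearMap.compl₁₂_apply]
      rw [hB, hB]
      exact hmulA _ _
    intro f g
    exact LinearMap.congr_fun₂ key f g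
  have h1 : χ' 1 = 1 := by
    have := hχ' 1
    rw [map_one] at this
    exact this
  obtain ⟨m, hm⟩ := exists_eq_eval_of_mul χ' h1 hmul
  exact ⟨m, fun a => by rw [← hχ', hm]⟩

/-- equivariant functions are fractions of elements of an order. -/
theorem IsPreOrder.exists_smul_mem (hA : IsPreOrder p act A) (ψ : M → Qb)
    (hψ : ∀ (σ : GQ) (m : M), ψ (act σ m) = σ (ψ m)) :
    ∃ r : ratLocalizedAt p, r ≠ 0 ∧ r • ψ ∈ A := by
  obtain ⟨n, b, B, hB⟩ := hA.exists_basis
  have hfix : ∀ i, ∀ σ : GQ, σ (B.repr ψ i) = B.repr ψ i := by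
    intro i σ
    have h1 : ψ = ∑ i, (B.repr ψ i) • B i := (B.sum_repr ψ).symm
    have h2 : ψ = ∑ i, (σ (B.repr ψ i)) • B i := by
      funext m
      have h3 : ψ m = σ (ψ (act σ⁻¹ m)) := by
        rw [← hψ]
        have : act σ (act σ⁻¹ m) = (act (σ * σ⁻¹)) m := by rw [map_mul]; rfl
        rw [this, mul_inv_cancel, map_one]
        rfl
      rw [h3]
      conv_lhs => rw [h1]
      simp only [Finset.sum_apply, Pi.smul_apply, smul_eq_mul, map_sum, map_mul]
      refine Finset.sum_congr rfl fun i _ => ?_
      congr 1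
      rw [hB, ← hA.equivariant _ (b i).2]
      have : act σ (act σ⁻¹ m) = (act (σ * σ⁻¹)) m := by rw [map_mul]; rfl
      rw [this, mul_inv_cancel, map_one]
      rfl
    have h3 := congrArg (fun f => B.repr f i) h2
    simp only [map_sum, map_smul, Module.Basis.repr_self, Finsupp.coe_finsetSum, Finset.sum_apply,
      Finsupp.smul_apply, Finsupp.single_apply, smul_eq_mul, mul_ite, mul_one, mul_zero,
      Finset.sum_ite_eq', Finset.mem_univ, if_true] at h3
    exact h3.symm
  choose c hc using fun i => exists_rat_of_forall_fixed (hfix i)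
  obtain ⟨r, hr⟩ := IsLocalization.exist_integer_multiples_of_finite
    (nonZeroDivisors (ratLocalizedAt p)) c
  refine ⟨r, nonZeroDivisors.ne_zero r.2, ?_⟩
  choose d hd using hr
  have h1 : (r : ratLocalizedAt p) • ψ = ((∑ i, d i • b i : A) : M → Qb) := by
    have h2 : ((∑ i, d i • b i : A) : M → Qb) = ∑ i, d i • B i := by
      have : ((∑ i, d i • b i : A) : M → Qb) = A.val (∑ i, d i • b i) := rfl
      rw [this, map_sum]
      refine Finset.sum_congr rfl fun i _ => ?_
      rw [map_smul, hB]
      rfl
    rw [h2]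
    conv_lhs => rw [← B.sum_repr ψ]
    rw [Finset.smul_sum]
    refine Finset.sum_congr rfl fun i _ => ?_
    rw [← hc i]
    funext m
    rw [Pi.smul_apply, Pi.smul_apply, Pi.smul_apply, smul_eq_mul,
      Algebra.smul_def (r : ratLocalizedAt p) (algebraMap ℚ Qb (c i) * B i m),
      Algebra.smul_def (d i) (B i m), ← mul_assoc]
    congr 1
    have h3 : algebraMap ℚ Qb (algebraMap (ratLocalizedAt p) ℚ (d i)) =
        algebraMap ℚ Qb ((r : ratLocalizedAt p) • c i) := by rw [hd i]
    have h4 : algebraMap ℚ Qb ((r : ratLocalizedAt p) • c i) =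
      algebraMap (ratLocalizedAt p) Qb r * algebraMap ℚ Qb (c i) := by
      rw [Algebra.smul_def, map_mul]; rfl
    rw [← h4, ← h3]
    rfl
  rw [h1]
  exact Subtype.mem _

end Span

end

end Fermat.FlatModel
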