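import Fermat.Agent.FlatModel.Model

set_option autoImplicit false

/-!
# Finite flat models of quotients
-/

namespace Fermat.FlatModel

open GaloisRep TensorProduct

noncomputable section

variable {p : ℕ} {M : Type} [AddCommGroup M] {act : GQ →* AddMonoid.End M}
variable {Q : Type} [AddCommGroup Q] {actQ : GQ →* AddMonoid.End Q}

variable (M) in
/-- the space of equivariant functions. -/
def equivFun (act : GQ →* AddMonoid.End M) : Submodule ℚ (M → Qb) where
  carrier := {ψ | ∀ (σ : GQ) (m : M), ψ (act σ m) = σ (ψ m)}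
  zero_mem' := fun σ m => by simp
  add_mem' := fun {a b} ha hb σ m => by
    show a _ + b _ = σ (a m + b m)
    rw [ha, hb, map_add]
  smul_mem' := fun c a ha σ m => by
    show c • a _ = σ (c • a m)
    rw [ha]
    exact (map_rat_smul σ c (a m)).symm

theorem exists_injective_like [Finite M] {A : Subalgebra (ratLocalizedAt p) (M → Qb)}
    (hA : IsPreOrder p act A) (m : M) :
    ∃ ψ ∈ equivFun M act, ∀ n, n ≠ m → ψ m ≠ ψ n := by
  by_contra hcon
  push Not at hcon
  let W : {n : M // n ≠ m} → Submodule ℚ (equivFun M act) := fun n =>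
    LinearMap.ker (((LinearMap.proj (R := ℚ) (φ := fun _ : M => Qb) m) -
      (LinearMap.proj (R := ℚ) (φ := fun _ : M => Qb) n.1)) ∘ₗ (equivFun M act).subtype)
  have hcov : ⋃ n, (W n : Set (equivFun M act)) = Set.univ := by
    rw [Set.eq_univ_iff_forall]
    intro ψ
    obtain ⟨n, hn, he⟩ := hcon ψ ψ.2
    rw [Set.mem_iUnion]
    refine ⟨⟨n, hn⟩, ?_⟩
    simp only [W, SetLike.mem_coe, LinearMap.mem_ker, LinearMap.coe_comp, Function.comp_apply,
      LinearMap.sub_apply, LinearMap.proj_apply, Submodule.subtype_apply]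
    exact sub_eq_zero.mpr he
  obtain ⟨⟨n, hn⟩, hW⟩ := Subspace.exists_eq_top_of_iUnion_eq_univ hcov
  apply hn
  refine (hA.separates m n fun φ hφ => ?_).symm
  have : (⟨φ, hA.equivariant φ hφ⟩ : equivFun M act) ∈ W ⟨n, hn⟩ := by
    rw [hW]; exact Submodule.mem_top
  simp only [W, LinearMap.mem_ker, LinearMap.coe_comp, Function.comp_apply,
      LinearMap.sub_apply, LinearMap.proj_apply, Submodule.subtype_apply] at this
  exact sub_eq_zero.mp this

open Polynomial in
/-- the order on a quotient. -/
theorem IsPreOrder.quot [Finite M] {A : Subalgebra (ratLocalizedAt p) (M → Qb)}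
    (hA : IsPreOrder p act A) (q : M →+ Q) (hq : Function.Surjective q)
    (hact : ∀ σ m, q (act σ m) = actQ σ (q m)) :
    IsPreOrder p actQ (A.comap (pull p q)) := by
  classical
  refine ⟨?_, ?_, ?_⟩
  · have := hA.moduleFinite
    let f : (A.comap (pull p q)) →ₗ[ratLocalizedAt p] A :=
      ((pull p q).toLinearMap.domRestrict (A.comap (pull p q)).toSubmodule).codRestrict
        A.toSubmodule (fun x => x.2)
    have hf : Function.Injective f := by
      intro x y hxy
      apply Subtype.ext
      funext u
      obtain ⟨m, rfl⟩ := hq u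
      exact congrFun (congrArg Subtype.val hxy) m
    exact Module.Finite.iff_fg.mp (Module.Finite.of_injective f hf)
  · intro φ hφ σ u
    obtain ⟨m, rfl⟩ := hq u
    rw [← hact]
    exact hA.equivariant _ hφ σ m
  · intro u v huv
    by_contra hne
    obtain ⟨m, rfl⟩ := hq u
    obtain ⟨n, rfl⟩ := hq v
    let _ := Fintype.ofFinite M
    obtain ⟨ψ, hψ, hψ'⟩ := exists_injective_like hA m
    let P : Q → Qb[X] := fun u => ∏ y ∈ (Finset.univ : Finset M).filter (fun y => q y = u), (X - C (ψ y))
    have hPm : (P (q m)).eval (ψ m) = 0 := by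
      rw [eval_prod]
      refine Finset.prod_eq_zero (i := m) (by simp) ?_
      simp
    have hPn : (P (q n)).eval (ψ m) ≠ 0 := by
      rw [eval_prod, Finset.prod_ne_zero_iff]
      intro y hy
      have hy' : q y = q n := by simpa using hy
      have : y ≠ m := by
        rintro rfl
        exact hne hy'
      rw [eval_sub, eval_X, eval_C]
      exact sub_ne_zero.mpr (hψ' y this)
    have hPne : P (q m) ≠ P (q n) := fun h => hPn (h ▸ hPm)
    obtain ⟨k, hk⟩ : ∃ k, (P (q m)).coeff k ≠ (P (q n)).coeff k := by
      by_contra hcon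
      push Not at hcon
      exact hPne (Polynomial.ext hcon)
    have hPσ : ∀ σ u, P (actQ σ u) = (P u).map (σ : Qb →+* Qb) := by
      intro σ u
      simp only [P]
      rw [Polynomial.map_prod]
      symm
      refine Finset.prod_bij (fun y _ => act σ y) ?_ ?_ ?_ ?_
      · intro y hy
        have hy' : q y = u := by simpa using hy
        simp [hact, hy']
      · intro a _ b _ hab
        have : act (σ⁻¹ * σ) a = act (σ⁻¹ * σ) b := by
          rw [map_mul]
          exact congrArg (act σ⁻¹) hab
        simpa using this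
      · intro b hb
        have hb' : q b = actQ σ u := by simpa using hb
        have h1 : ∀ (τ : GQ) x, act τ (act τ⁻¹ x) = x := by
          intro τ x
          have : act τ (act τ⁻¹ x) = (act (τ * τ⁻¹)) x := by rw [map_mul]; rfl
          rw [this, mul_inv_cancel, map_one]; rfl
        have h2 : ∀ (τ : GQ) x, actQ τ⁻¹ (actQ τ x) = x := by
          intro τ x
          have : actQ τ⁻¹ (actQ τ x) = (actQ (τ⁻¹ * τ)) x := by rw [map_mul]; rfl
          rw [this, inv_mul_cancel, map_one]; rfl
        refine ⟨act σ⁻¹ b, ?_, h1 σ b⟩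
        simp only [Finset.mem_filter, Finset.mem_univ, true_and]
        rw [hact, hb', h2]
      · intro y _
        rw [Polynomial.map_sub, map_X, map_C]
        congr 2
        exact (hψ σ y).symm
    let θ : M → Qb := fun m => (P (q m)).coeff k
    have hθ : ∀ (σ : GQ) (m : M), θ (act σ m) = σ (θ m) := by
      intro σ m
      show (P (q (act σ m))).coeff k = σ ((P (q m)).coeff k)
      rw [hact, hPσ, coeff_map]
      rfl
    obtain ⟨r, hr, hrA⟩ := hA.exists_smul_mem θ hθ
    have h3 := huv (r • fun u => (P u).coeff k) (by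
      show pull p q (r • fun u => (P u).coeff k) ∈ A
      exact hrA)
    apply hk
    simp only [Pi.smul_apply, Algebra.smul_def] at h3
    refine mul_left_cancel₀ ?_ h3
    have : algebraMap (ratLocalizedAt p) Qb r = algebraMap ℚ Qb (r : ℚ) := rfl
    rw [this, Ne, map_eq_zero]
    exact fun h => hr (Subtype.ext h)


/-- existence of a retraction onto the sub-order of functions factoring through a quotient. -/
theorem exists_retraction [Finite M] {A : Subalgebra (ratLocalizedAt p) (M → Qb)}
    (hA : IsPreOrder p act A) (q : M →+ Q) (hq : Function.Surjective q) :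
    ∃ r : A →ₗ[ratLocalizedAt p] (A.comap (pull p q)), ∀ (φ : A.comap (pull p q)),
      r ⟨pull p q φ, φ.2⟩ = φ := by
  have := hA.moduleFinite
  let f : (A.comap (pull p q)) →ₗ[ratLocalizedAt p] A :=
      ((pull p q).toLinearMap.domRestrict (A.comap (pull p q)).toSubmodule).codRestrict
        A.toSubmodule (fun x => x.2)
  have hfval : ∀ x, ((f x : A) : M → Qb) = pull p q x := fun x => rfl
  have hf : Function.Injective f := by
    intro x y hxy
    apply Subtype.ext
    funext u
    obtain ⟨m, rfl⟩ := hq u
    exact congrFun (congrArg Subtype.val hxy) m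
  let N := LinearMap.range f
  have htf : Module.IsTorsionFree (ratLocalizedAt p) (A ⧸ N) := by
    refine Module.IsTorsionFree.of_smul_eq_zero fun r x => ?_
    obtain ⟨a, rfl⟩ := N.mkQ_surjective x
    intro hra
    by_cases hr : r = 0
    · exact Or.inl hr
    right
    rw [← map_smul, Submodule.mkQ_apply, Submodule.Quotient.mk_eq_zero] at hra
    rw [Submodule.mkQ_apply, Submodule.Quotient.mk_eq_zero]
    obtain ⟨φ, hφ⟩ := hra
    -- define the function on `Q`
    have hr' : algebraMap ℚ Qb (r : ℚ) ≠ 0 := by
      rw [Ne, map_eq_zero]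
      exact fun h => hr (Subtype.ext h)
    let ψ : Q → Qb := fun u => (algebraMap ℚ Qb (r : ℚ))⁻¹ * (φ : Q → Qb) u
    have hψ : pull p q ψ = (a : M → Qb) := by
      funext m
      have h1 : (φ : Q → Qb) (q m) = (algebraMap ℚ Qb (r : ℚ)) * (a : M → Qb) m := by
        have h2 := congrFun (congrArg (Subtype.val) hφ) m
        have h3 : ((r • a : A) : M → Qb) m = algebraMap (ratLocalizedAt p) Qb r * (a : M → Qb) m := by
          rw [← Algebra.smul_def]; rfl
        exact h2.trans h3
      show (algebraMap ℚ Qb (r : ℚ))⁻¹ * (φ : Q → Qb) (q m) = (a : M → Qb) m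
      rw [h1, inv_mul_cancel_left₀ hr']
    refine ⟨⟨ψ, ?_⟩, Subtype.ext hψ⟩
    show pull p q ψ ∈ A
    rw [hψ]
    exact a.2
  have hfin : Module.Finite (ratLocalizedAt p) (A ⧸ N) := inferInstance
  have hfree : Module.Free (ratLocalizedAt p) (A ⧸ N) := Module.free_of_finite_type_torsion_free'
  have hproj : Module.Projective (ratLocalizedAt p) (A ⧸ N) := Module.Projective.of_free
  obtain ⟨s, hs⟩ := Module.projective_lifting_property N.mkQ LinearMap.id N.mkQ_surjective
  have hmem : ∀ a : A, (LinearMap.id - s ∘ₗ N.mkQ : A →ₗ[ratLocalizedAt p] A) a ∈ N := by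
    intro a
    have h1 := LinearMap.congr_fun hs (N.mkQ a)
    simp only [LinearMap.coe_comp, Function.comp_apply, LinearMap.id_coe, id_eq] at h1
    rw [← Submodule.Quotient.mk_eq_zero, ← Submodule.mkQ_apply]
    simp only [LinearMap.sub_apply, LinearMap.id_coe, id_eq, LinearMap.coe_comp,
      Function.comp_apply, map_sub, h1, sub_self]
  let g : A →ₗ[ratLocalizedAt p] N := (LinearMap.id - s ∘ₗ N.mkQ).codRestrict N hmem
  let e : (A.comap (pull p q)) ≃ₗ[ratLocalizedAt p] N := LinearEquiv.ofInjective f hf
  refine ⟨e.symm.toLinearMap ∘ₗ g, fun φ => ?_⟩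
  have h1 : g ⟨pull p q φ, φ.2⟩ = e φ := by
    apply Subtype.ext
    show (LinearMap.id - s ∘ₗ N.mkQ : A →ₗ[ratLocalizedAt p] A) (f φ) = f φ
    have h2 : N.mkQ (f φ) = 0 := by
      rw [Submodule.mkQ_apply, Submodule.Quotient.mk_eq_zero]
      exact ⟨φ, rfl⟩
    simp only [LinearMap.sub_apply, LinearMap.id_coe, id_eq, LinearMap.coe_comp,
      Function.comp_apply, h2, map_zero, sub_zero]
  show e.symm (g ⟨pull p q φ, φ.2⟩) = φ
  rw [h1, LinearEquiv.symm_apply_apply]


theorem IsFlatOrder.quot [Finite M] {A : Subalgebra (ratLocalizedAt p) (M → Qb)}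
    (hA : IsFlatOrder p act A) (q : M →+ Q) (hq : Function.Surjective q)
    (hact : ∀ σ m, q (act σ m) = actQ σ (q m)) :
    IsFlatOrder p actQ (A.comap (pull p q)) := by
  have hpre := hA.toIsPreOrder.quot q hq hact
  have : Finite Q := Finite.of_surjective q hq
  refine ⟨hpre, ?_⟩
  obtain ⟨r, hr⟩ := exists_retraction hA.toIsPreOrder q hq
  obtain ⟨n, b, B, hB⟩ := hA.exists_basis
  let rK : (M → Qb) →ₗ[Qb] (Q → Qb) := B.constr Qb (fun i => (r (b i) : Q → Qb))
  have hrK : ∀ a : A, rK (a : M → Qb) = (r a : Q → Qb) := by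
    intro a
    have h : (rK.restrictScalars (ratLocalizedAt p)) ∘ₗ A.val.toLinearMap =
        (A.comap (pull p q)).val.toLinearMap ∘ₗ r := by
      refine b.ext fun i => ?_
      simp only [LinearMap.coe_comp, Function.comp_apply, AlgHom.toLinearMap_apply,
        LinearMap.coe_restrictScalars]
      have h5 : A.val (b i) = B i := (hB i).symm
      rw [h5]
      exact B.constr_basis Qb _ i
    exact LinearMap.congr_fun h a
  have hrKq : ∀ F : Q → Qb, rK (fun m => F (q m)) = F := by
    intro F
    let qK : (Q → Qb) →ₗ[Qb] (M → Qb) := LinearMap.funLeft Qb Qb q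
    have h1 : rK ∘ₗ qK = LinearMap.id := by
      refine LinearMap.ext_on (span_eq_top hpre.separates) ?_
      intro φ hφ
      show rK (qK φ) = φ
      have h2 : qK φ = ((⟨pull p q φ, hφ⟩ : A) : M → Qb) := rfl
      rw [h2, hrK]
      exact congrArg Subtype.val (hr ⟨φ, hφ⟩)
    exact LinearMap.congr_fun h1 F
  have hT : ∀ (t : A ⊗[ratLocalizedAt p] A) (u v : Q),
      rK (fun n => rK (fun m => mu₂ (R := ratLocalizedAt p) (K := Qb) A.val t (m, n)) u) v =
        mu₂ (R := ratLocalizedAt p) (K := Qb) (A.comap (pull p q)).val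
          (TensorProduct.map r r t) (u, v) := by
    intro t u v
    induction t using TensorProduct.induction_on with
    | zero =>
      simp only [map_zero, Pi.zero_apply]
      have h0 : (fun _ : M => (0 : Qb)) = 0 := rfl
      simp only [h0, map_zero, Pi.zero_apply]
    | add x y hx hy =>
      rw [map_add, map_add, map_add, Pi.add_apply, ← hx, ← hy]
      have h1 : ∀ n, rK (fun m => (mu₂ (R := ratLocalizedAt p) (K := Qb) A.val x +
          mu₂ (R := ratLocalizedAt p) (K := Qb) A.val y) (m, n)) =
          rK (fun m => mu₂ (R := ratLocalizedAt p) (K := Qb) A.val x (m, n)) +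
          rK (fun m => mu₂ (R := ratLocalizedAt p) (K := Qb) A.val y (m, n)) :=
        fun n => rK.map_add _ _
      have h2 : (fun n => rK (fun m => (mu₂ (R := ratLocalizedAt p) (K := Qb) A.val x +
          mu₂ (R := ratLocalizedAt p) (K := Qb) A.val y) (m, n)) u) =
          (fun n => rK (fun m => mu₂ (R := ratLocalizedAt p) (K := Qb) A.val x (m, n)) u) +
          (fun n => rK (fun m => mu₂ (R := ratLocalizedAt p) (K := Qb) A.val y (m, n)) u) := by
        funext n
        rw [h1, Pi.add_apply, Pi.add_apply]
      rw [h2, map_add, Pi.add_apply]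
    | tmul a c =>
      rw [TensorProduct.map_tmul, mu₂_tmul]
      have h1 : ∀ n, (fun m => mu₂ (R := ratLocalizedAt p) (K := Qb) A.val (a ⊗ₜ c) (m, n)) =
          (c : M → Qb) n • (a : M → Qb) := by
        intro n
        funext m
        rw [mu₂_tmul]
        exact mul_comm _ _
      simp only [h1, map_smul, Pi.smul_apply, hrK]
      have h2 : (fun n => (c : M → Qb) n • (r a : Q → Qb) u) =
          (r a : Q → Qb) u • (c : M → Qb) := by
        funext n
        exact mul_comm _ _
      rw [h2, map_smul, Pi.smul_apply, hrK]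
      rfl
  rintro _ ⟨φ, hφ, rfl⟩
  have h1 : (pull p (fun x : M × M => x.1 + x.2)) (pull p q φ) ∈
      (mu₂ (R := ratLocalizedAt p) (K := Qb) A.val).range := by
    rw [range_mu₂, Subalgebra.range_val]
    exact hA.comul ⟨_, hφ, rfl⟩
  obtain ⟨t, ht⟩ := h1
  have h2 : (pull p (fun x : Q × Q => x.1 + x.2)) φ ∈
      (mu₂ (R := ratLocalizedAt p) (K := Qb) (A.comap (pull p q)).val).range := by
    refine ⟨TensorProduct.map r r t, ?_⟩
    funext ⟨u, v⟩
    refine (hT t u v).symm.trans ?_
    have h3 : ∀ m n, mu₂ (R := ratLocalizedAt p) (K := Qb) A.val t (m, n) = φ (q m + q n) := by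
      intro m n
      refine (congrFun ht (m, n)).trans ?_
      show φ (q (m + n)) = _
      rw [map_add]
    simp only [h3]
    have h4 : ∀ n, rK (fun m => φ (q m + q n)) = fun u => φ (u + q n) :=
      fun n => hrKq (fun u => φ (u + q n))
    simp only [h4]
    have h5 := hrKq (fun v => φ (u + v))
    rw [h5]
    rfl
  rw [range_mu₂, Subalgebra.range_val] at h2
  exact h2

/-- closure of flat models under equivariant quotients. -/
theorem HasFlatModel.of_surjective [Finite M] (h : HasFlatModel p act) (q : M →+ Q)
    (hq : Function.Surjective q) (hact : ∀ σ m, q (act σ m) = actQ σ (q m)) :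
    HasFlatModel p actQ := by
  obtain ⟨A, hA⟩ := h.exists_order
  have : Finite Q := Finite.of_surjective q hq
  exact (hA.quot q hq hact).hasFlatModel

/-- transport of flat models along equivariant isomorphisms. -/
theorem HasFlatModel.congr [Finite M] (h : HasFlatModel p act) (q : M ≃+ Q)
    (hact : ∀ σ m, q (act σ m) = actQ σ (q m)) : HasFlatModel p actQ :=
  h.of_surjective q.toAddMonoidHom q.surjective hact

/-- the pointwise action on functions `ι → M`. -/
def piAct (ι : Type) (act : GQ →* AddMonoid.End M) : GQ →* AddMonoid.End (ι → M) where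
  toFun σ :=
    { toFun := fun f i => act σ (f i)
      map_zero' := by funext i; exact map_zero _
      map_add' := fun f g => by funext i; exact map_add _ _ _ }
  map_one' := AddMonoidHom.ext fun f => funext fun i => by
    show act 1 (f i) = f i
    rw [map_one]; rfl
  map_mul' σ τ := AddMonoidHom.ext fun f => funext fun i => by
    show act (σ * τ) (f i) = act σ (act τ (f i))
    rw [map_mul]; rfl

@[simp] theorem piAct_apply (ι : Type) (σ : GQ) (f : ι → M) (i : ι) :
    piAct ι act σ f i = act σ (f i) := rfl

/-- the trivial group has a flat model. -/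
theorem hasFlatModel_of_subsingleton [Subsingleton M] : HasFlatModel p act := by
  have hA : IsFlatOrder p act (⊥ : Subalgebra (ratLocalizedAt p) (M → Qb)) := by
    refine ⟨⟨?_, ?_, ?_⟩, ?_⟩
    · exact Subalgebra.fg_bot_toSubmodule
    · intro φ hφ σ m
      obtain ⟨r, rfl⟩ := Algebra.mem_bot.mp hφ
      show algebraMap ℚ Qb (r : ℚ) = σ (algebraMap ℚ Qb (r : ℚ))
      rw [AlgEquiv.commutes]
    · intro m n _
      exact Subsingleton.elim _ _
    · rw [Algebra.map_bot]
      exact bot_le
  exact hA.hasFlatModel

theorem HasFlatModel.piFin [Finite M] (h : HasFlatModel p act) (n : ℕ) :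
    HasFlatModel p (piAct (Fin n) act) := by
  induction n with
  | zero => exact hasFlatModel_of_subsingleton
  | succ n ih =>
    refine (h.prod ih).congr (actQ := piAct (Fin (n + 1)) act)
      { toFun := fun x => Fin.cons x.1 x.2
        invFun := fun f => (f 0, Fin.tail f)
        left_inv := fun x => by simp
        right_inv := fun f => by simp
        map_add' := fun x y => by
          funext i
          refine Fin.cases ?_ (fun j => ?_) i
          · simp
          · simp } ?_
    intro σ m
    funext i
    refine Fin.cases ?_ (fun j => ?_) i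
    · simp
    · simp

/-- closure of flat models under finite powers. -/
theorem HasFlatModel.pi [Finite M] (h : HasFlatModel p act) (ι : Type) [Finite ι] :
    HasFlatModel p (piAct ι act) := by
  obtain ⟨n, ⟨e⟩⟩ := Finite.exists_equiv_fin ι
  refine (h.piFin n).congr (actQ := piAct ι act)
    { toFun := fun f i => f (e i)
      invFun := fun f j => f (e.symm j)
      left_inv := fun f => by funext j; simp
      right_inv := fun f => by funext j; simp
      map_add' := fun f g => by funext j; rfl } ?_
  intro σ m
  rfl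

end

end Fermat.FlatModel
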